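import Fermat.Agent.S52.H99.Endo

/-!
# Manin's method: the leaves (MΦ), (Mσ), (MZ) for the twisted curve

With the notation of `Endo.lean` (`G = Elam(F(t))`, height `hP`, generic point `P0`):

* `Phi` : the Frobenius endomorphism `(x, y) ↦ (x^p, lam^((p-1)/2) y^p)` (twisted coordinates),
  `hP_Phi : hP (Phi P) = p * hP P`;
* `exists_sigma` : for `hP Q ≠ 0` there is an endomorphism `σ` of `G` with `σ P0 = Q`,
  `σ ∘ Phi = Phi ∘ σ`, `hP (σ P) = hP P * hP Q`;
* `two_nsmul_eq_zero_of_hP_eq_zero` : `hP R = 0 → 2 • R = 0`.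

These are exactly the hypotheses `MPhi`, `Msig`, `MZ` of `Fermat.Agent.S52.H3.manin_algebra`.
-/

set_option autoImplicit false

namespace Fermat.Agent.S52.H99

open WeierstrassCurve WeierstrassCurve.Affine
open Fermat.Agent.S52.H41

variable {F : Type*} [Field F]

/-- The height of a power. -/
lemma ht_pow (r : RatFunc F) (n : ℕ) : ht (r ^ n) = n * ht r := by
  by_cases hr : ∃ c, r = RatFunc.C c
  · obtain ⟨c, rfl⟩ := hr
    rw [← map_pow, ht_C, ht_C, mul_zero]
  · have e : r ^ n = substHom r hr (RatFunc.X ^ n) := by rw [map_pow, substHom_X]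
    rw [e, ht_substHom]
    congr 1
    have e' : (RatFunc.X : RatFunc F) ^ n =
        algebraMap (Polynomial F) (RatFunc F) (Polynomial.X ^ n) := by simp
    rw [e', ht, RatFunc.num_algebraMap, RatFunc.denom_algebraMap]
    simp

section Phi

variable (p : ℕ) [ExpChar F p]

lemma frobenius_C_eq (A : F) (hA : A ^ p = A) :
    frobenius (RatFunc F) p (RatFunc.C A) = RatFunc.C A := by
  rw [frobenius_def, ← map_pow, hA]

lemma frobenius_lam (A B : F) (hp : Odd p) :
    frobenius (RatFunc F) p (lam A B) = lam A B * (lam A B ^ ((p - 1) / 2)) ^ 2 := by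
  rw [frobenius_def, ← pow_mul, ← pow_succ']
  congr 1
  obtain ⟨k, rfl⟩ := hp
  omega

variable [DecidableEq (RatFunc F)]

/-- The Frobenius endomorphism of the twisted curve: in twisted coordinates
`(x, y) ↦ (x^p, lam^((p-1)/2) y^p)`. -/
noncomputable def Phi (A B : F) (hp : Odd p) (hA : A ^ p = A) (hB : B ^ p = B) :
    (Elam A B).toAffine.Point →+ (Elam A B).toAffine.Point :=
  lamEnd A B (frobenius (RatFunc F) p) (lam A B ^ ((p - 1) / 2))
    (pow_ne_zero _ (lam_ne_zero A B)) (frobenius_C_eq p A hA) (frobenius_C_eq p B hB)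
    (frobenius_lam p A B hp)

/-- **(MΦ)**: `h (Φ P) = p * h P`. -/
theorem hP_Phi (A B : F) (hp : Odd p) (hA : A ^ p = A) (hB : B ^ p = B)
    (P : (Elam A B).toAffine.Point) :
    hP A B (Phi p A B hp hA hB P) = p * hP A B P := by
  rcases P with _ | ⟨x, y, h⟩
  · change hP A B (Phi p A B hp hA hB 0) = p * hP A B 0
    rw [map_zero]
    simp
  · rw [Phi, hP_lamEnd_some, frobenius_def, ht_pow, hP_some]

/-- **(Mσ)**: for a point `Q` of nonzero height there is an endomorphism `σ` of the twisted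
curve with `σ P0 = Q`, commuting with `Φ`, and multiplying heights by `h Q`. -/
theorem exists_sigma (A B : F) (hp : Odd p) (hA : A ^ p = A) (hB : B ^ p = B) (h2 : (2 : F) ≠ 0)
    (Q : (Elam A B).toAffine.Point) (hQ : hP A B Q ≠ 0) :
    ∃ σ : (Elam A B).toAffine.Point →+ (Elam A B).toAffine.Point,
      σ (P0 A B h2) = Q ∧ (∀ P, σ (Phi p A B hp hA hB P) = Phi p A B hp hA hB (σ P)) ∧
        ∀ P, hP A B (σ P) = hP A B P * hP A B Q := by
  rcases Q with _ | ⟨XQ, YQ, hQn⟩
  · exact absurd rfl hQ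
  rw [hP_some] at hQ
  have hne : ¬∃ c, XQ / lam A B = RatFunc.C c := by
    rintro ⟨c, hc⟩
    rw [hc, ht_C] at hQ
    exact hQ rfl
  have hl0 := lam_ne_zero A B
  obtain ⟨ψ, hψ⟩ : ∃ ψ : RatFunc F →+* RatFunc F,
      ψ = (substHom (XQ / lam A B) hne : RatFunc F →+* RatFunc F) := ⟨_, rfl⟩
  have hψX : ψ RatFunc.X = XQ / lam A B := by rw [hψ]; exact substHom_X _ hne
  have hψC : ∀ c : F, ψ (RatFunc.C c) = RatFunc.C c := fun c => by
    rw [hψ]; exact substHom_C _ hne c
  obtain ⟨w, hw⟩ : ∃ w : RatFunc F, w = YQ / lam A B ^ 2 := ⟨_, rfl⟩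
  have hl : ψ (lam A B) = lam A B * w ^ 2 := by
    have heq := (equation_Elam_iff A B XQ YQ).mp hQn.1
    have e : ψ (lam A B) = (XQ / lam A B) ^ 3 + RatFunc.C A * (XQ / lam A B) + RatFunc.C B := by
      conv_lhs => rw [lam]
      rw [map_add, map_add, map_mul, map_pow, hψX, hψC, hψC]
    rw [e, hw]
    field_simp
    linear_combination (-1 : RatFunc F) * heq
  have hw0 : w ≠ 0 := by
    intro h0
    rw [h0] at hl
    simp only [ne_eq, OfNat.ofNat_ne_zero, not_false_eq_true, zero_pow, mul_zero] at hl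
    exact hl0 ((map_eq_zero ψ).mp hl)
  refine ⟨lamEnd A B ψ w hw0 (hψC A) (hψC B) hl, ?_, ?_, ?_⟩
  · obtain ⟨h', e⟩ := lamEnd_some A B ψ w hw0 (hψC A) (hψC B) hl (nonsingular_P0 A B h2)
    rw [P0, e]
    refine some_congr' _ _ ?_ ?_
    · rw [map_mul, hl, hψX]
      field_simp
    · rw [map_pow, hl, hw]
      field_simp
  · intro P
    refine lamEnd_comm A B ψ w hw0 (hψC A) (hψC B) hl (frobenius (RatFunc F) p) _ _ _ _ _
      (fun z => by simp only [frobenius_def, map_pow]) ?_ P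
    rw [map_pow, hl, frobenius_def, mul_pow, ← pow_mul]
    obtain ⟨k, rfl⟩ := hp
    have hk : (2 * k + 1 - 1) / 2 = k := by omega
    rw [hk]
    ring
  · intro P
    rcases P with _ | ⟨x, y, h⟩
    · change hP A B (lamEnd A B ψ w hw0 (hψC A) (hψC B) hl 0) = hP A B 0 * _
      rw [map_zero]
      simp
    · rw [hP_lamEnd_some, hP_some, hP_some, hψ]
      exact ht_substHom _ hne _

end Phi

variable [DecidableEq (RatFunc F)]

/-- **(MZ)**: a point of height zero is killed by `2`. -/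
theorem two_nsmul_eq_zero_of_hP_eq_zero (A B : F) (R : (Elam A B).toAffine.Point)
    (hR : hP A B R = 0) : 2 • R = 0 := by
  rcases R with _ | ⟨x, y, h⟩
  · exact nsmul_zero 2
  rw [hP_some] at hR
  have hl0 := lam_ne_zero A B
  have hc : ∃ c, x / lam A B = RatFunc.C c := by
    by_contra hne
    exact absurd hR (ht_pos_of_ne_C _ hne).ne'
  obtain ⟨c, hc⟩ := hc
  have hx : x = RatFunc.C c * lam A B := by
    rw [← hc, div_mul_cancel₀ _ hl0]
  have heq := (equation_Elam_iff A B x y).mp h.1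
  have hy2 : y ^ 2 = lam A B ^ 3 * RatFunc.C (c ^ 3 + A * c + B) := by
    rw [heq, hx, map_add, map_add, map_mul, map_pow]
    ring
  have hy : y = 0 := by
    by_contra hy0
    have hd : RatFunc.C (c ^ 3 + A * c + B) ≠ 0 := by
      intro h0
      rw [h0, mul_zero] at hy2
      exact hy0 ((pow_eq_zero_iff (two_ne_zero)).mp hy2)
    have h1 : (y ^ 2).intDegree = 2 * y.intDegree := by
      rw [pow_two, RatFunc.intDegree_mul hy0 hy0]
      ring
    have h2 : (lam A B ^ 3 * RatFunc.C (c ^ 3 + A * c + B)).intDegree = 9 := by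
      rw [RatFunc.intDegree_mul (pow_ne_zero 3 hl0) hd, RatFunc.intDegree_C, pow_succ, pow_two,
        RatFunc.intDegree_mul (mul_ne_zero hl0 hl0) hl0, RatFunc.intDegree_mul hl0 hl0,
        intDegree_lam]
      norm_num
    rw [hy2, h2] at h1
    omega
  rw [two_nsmul]
  refine Point.add_self_of_Y_eq ?_
  rw [hy]
  simp [Elam, shortW, negY]

end Fermat.Agent.S52.H99
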