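import Fermat.Agent.S52.H99.PhiSigma
import Fermat.Agent.S52.H76.MZ

/-!
# Cayley–Hamilton from the two remaining leaves (MN) and (TRANSFER)

`H94.cayley_hamilton_of_leaves` with the leaves (MZ) (`H76.mz`), (MΦ-a), (MΦ-b), (Mσ)
(`PhiSigma.lean`) filled in.
-/

set_option autoImplicit false

namespace Fermat.Agent.S52.H99

open Fermat.Agent.S52

/-- Package E1 from the leaves (MN) and (TRANSFER) only. -/
theorem cayley_hamilton_of_MN_transfer (l : ℕ) [Fact l.Prime] (hl : l ≠ 2) (A B : ZMod l)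
    [DecidableEq (RatFunc (ZMod l))] (h2 : (2 : ZMod l) ≠ 0)
    (hΔ : 4 * A ^ 3 + 27 * B ^ 2 ≠ 0) (hMN : H94.MNStatement l A B h2)
    (hTr : H94.TransferStatement l A B h2) : H94.CHStatement l A B :=
  H94.cayley_hamilton_of_leaves l A B h2 hΔ (H76.mz A B) (phiExistsStatement l hl A B)
    (phiHeightStatement A B l ((Fact.out : l.Prime).odd_of_ne_two hl))
    (sigmaStatement A B h2 l ((Fact.out : l.Prime).odd_of_ne_two hl)) hMN hTr

end Fermat.Agent.S52.H99
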