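import Fermat.Agent.S52.H99.TwEnd
import Fermat.Agent.S52.H41.RatSubst

/-!
# The endomorphisms `Φ` and `σ_Q` of the twisted curve (Manin's method, leaves (MΦ), (Mσ), (MZ))

`F` a field, `K = F(t)`, `lam = t³ + A t + B`, and
`Elam : Y² = X³ + A lam² X + B lam³` (the Weierstrass form of `lam y² = x³ + A x + B`,
`X = lam x`, `Y = lam² y`).  On `G = Elam(K)` we have the height `hP (X, Y) = ht (X / lam)`,
the point `P0 = (lam t, lam²)`, the Frobenius endomorphism `Phi` and, for every point `Q`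
of nonzero height, the substitution endomorphism `σ_Q` with `σ_Q P0 = Q`.
-/

set_option autoImplicit false

namespace Fermat.Agent.S52.H99

open WeierstrassCurve WeierstrassCurve.Affine
open Fermat.Agent.S52.H41

variable {F : Type*} [Field F]

/-- `lam = t³ + A t + B` in `F(t)`. -/
noncomputable def lam (A B : F) : RatFunc F :=
  RatFunc.X ^ 3 + RatFunc.C A * RatFunc.X + RatFunc.C B

/-- The twist of `y² = x³ + A x + B` by `lam`, in Weierstrass form
`Y² = X³ + A lam² X + B lam³`. -/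
noncomputable def Elam (A B : F) : WeierstrassCurve (RatFunc F) :=
  shortW (RatFunc.C A * lam A B ^ 2) (RatFunc.C B * lam A B ^ 3)

lemma Elam_eq (A B : F) :
    Elam A B = ⟨0, 0, 0, RatFunc.C A * lam A B ^ 2, RatFunc.C B * lam A B ^ 3⟩ := rfl

lemma lam_eq_algebraMap (A B : F) :
    lam A B = algebraMap (Polynomial F) (RatFunc F)
      (Polynomial.X ^ 3 + (Polynomial.C A * Polynomial.X + Polynomial.C B)) := by
  simp [lam, add_assoc]

lemma lam_ne_zero (A B : F) : lam A B ≠ 0 := by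
  rw [lam_eq_algebraMap]
  refine RatFunc.algebraMap_ne_zero (Polynomial.Monic.ne_zero ?_)
  refine Polynomial.monic_X_pow_add ?_
  refine lt_of_le_of_lt (Polynomial.degree_linear_le) ?_
  norm_num

lemma intDegree_lam (A B : F) : (lam A B).intDegree = 3 := by
  rw [lam_eq_algebraMap, RatFunc.intDegree_polynomial]
  have : (Polynomial.X ^ 3 + (Polynomial.C A * Polynomial.X + Polynomial.C B) :
      Polynomial F).natDegree = 3 := by
    rw [Polynomial.natDegree_add_eq_left_of_degree_lt, Polynomial.natDegree_X_pow]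
    rw [Polynomial.degree_X_pow]
    refine lt_of_le_of_lt (Polynomial.degree_linear_le) ?_
    norm_num
  rw [this]
  rfl

/-- The height of a point of `Elam`: the height of the twisted `x`-coordinate `X / lam`. -/
noncomputable def hP (A B : F) : (Elam A B).toAffine.Point → ℕ
  | .zero => 0
  | .some x _ _ => ht (x / lam A B)

@[simp] lemma hP_zero (A B : F) : hP A B 0 = 0 := rfl

@[simp] lemma hP_some (A B : F) {x y : RatFunc F} (h : (Elam A B).toAffine.Nonsingular x y) :
    hP A B (.some x y h) = ht (x / lam A B) := rfl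

lemma equation_Elam_iff (A B : F) (x y : RatFunc F) :
    (Elam A B).toAffine.Equation x y ↔
      y ^ 2 = x ^ 3 + RatFunc.C A * lam A B ^ 2 * x + RatFunc.C B * lam A B ^ 3 := by
  rw [equation_iff]
  simp [Elam, shortW]

lemma nonsingular_P0 (A B : F) (h2 : (2 : F) ≠ 0) :
    (Elam A B).toAffine.Nonsingular (lam A B * RatFunc.X) (lam A B ^ 2) := by
  rw [nonsingular_iff]
  refine ⟨?_, Or.inr ?_⟩
  · rw [equation_Elam_iff]
    simp only [lam]
    ring
  · have h2' : (2 : RatFunc F) ≠ 0 := by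
      have : (2 : RatFunc F) = RatFunc.C (2 : F) := (map_ofNat RatFunc.C 2).symm
      rw [this]
      exact (map_ne_zero _).mpr h2
    have hl := lam_ne_zero A B
    simp only [Elam, shortW, zero_mul, sub_zero]
    intro h
    have h' : 2 * lam A B ^ 2 = 0 := by linear_combination h
    exact mul_ne_zero h2' (pow_ne_zero 2 hl) h'

/-- The generic point `P0 = (t, 1)` of the twist, in Weierstrass coordinates `(lam t, lam²)`. -/
noncomputable def P0 (A B : F) (h2 : (2 : F) ≠ 0) : (Elam A B).toAffine.Point :=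
  .some _ _ (nonsingular_P0 A B h2)

lemma hP_P0 (A B : F) (h2 : (2 : F) ≠ 0) : hP A B (P0 A B h2) = 1 := by
  rw [P0, hP_some, mul_div_cancel_left₀ _ (lam_ne_zero A B), ht_X]

variable [DecidableEq (RatFunc F)]

/-- The twisted endomorphism of `Elam` attached to a ring endomorphism `ψ` of `F(t)` fixing
`A`, `B` and a function `w ≠ 0` with `ψ lam = lam w²`:
`(X, Y) ↦ (ψ X / w², ψ Y / w³)`. -/
noncomputable def lamEnd (A B : F) (ψ : RatFunc F →+* RatFunc F) (w : RatFunc F) (hw : w ≠ 0)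
    (hA : ψ (RatFunc.C A) = RatFunc.C A) (hB : ψ (RatFunc.C B) = RatFunc.C B)
    (hl : ψ (lam A B) = lam A B * w ^ 2) :
    (Elam A B).toAffine.Point →+ (Elam A B).toAffine.Point :=
  twEnd (RatFunc.C A * lam A B ^ 2) (RatFunc.C B * lam A B ^ 3) ψ w hw
    (by rw [map_mul, map_pow, hA, hl]; ring) (by rw [map_mul, map_pow, hB, hl]; ring)

lemma lamEnd_some (A B : F) (ψ : RatFunc F →+* RatFunc F) (w : RatFunc F) (hw : w ≠ 0)
    (hA : ψ (RatFunc.C A) = RatFunc.C A) (hB : ψ (RatFunc.C B) = RatFunc.C B)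
    (hl : ψ (lam A B) = lam A B * w ^ 2) {x y : RatFunc F}
    (h : (Elam A B).toAffine.Nonsingular x y) :
    ∃ h' : (Elam A B).toAffine.Nonsingular (ψ x / w ^ 2) (ψ y / w ^ 3),
      lamEnd A B ψ w hw hA hB hl (.some x y h) = .some (ψ x / w ^ 2) (ψ y / w ^ 3) h' :=
  twEnd_some _ _ ψ w hw _ _ h

@[simp] lemma lamEnd_zero (A B : F) (ψ : RatFunc F →+* RatFunc F) (w : RatFunc F) (hw : w ≠ 0)
    (hA : ψ (RatFunc.C A) = RatFunc.C A) (hB : ψ (RatFunc.C B) = RatFunc.C B)
    (hl : ψ (lam A B) = lam A B * w ^ 2) : lamEnd A B ψ w hw hA hB hl 0 = 0 :=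
  map_zero _

/-- The twisted `x`-coordinate of the image is `ψ` of the twisted `x`-coordinate. -/
lemma hP_lamEnd_some (A B : F) (ψ : RatFunc F →+* RatFunc F) (w : RatFunc F) (hw : w ≠ 0)
    (hA : ψ (RatFunc.C A) = RatFunc.C A) (hB : ψ (RatFunc.C B) = RatFunc.C B)
    (hl : ψ (lam A B) = lam A B * w ^ 2) {x y : RatFunc F}
    (h : (Elam A B).toAffine.Nonsingular x y) :
    hP A B (lamEnd A B ψ w hw hA hB hl (.some x y h)) = ht (ψ (x / lam A B)) := by
  obtain ⟨h', e⟩ := lamEnd_some A B ψ w hw hA hB hl h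
  rw [e, hP_some, map_div₀, hl, div_div, mul_comm (w ^ 2)]

lemma lamEnd_comm (A B : F) (ψ : RatFunc F →+* RatFunc F) (w : RatFunc F) (hw : w ≠ 0)
    (hA : ψ (RatFunc.C A) = RatFunc.C A) (hB : ψ (RatFunc.C B) = RatFunc.C B)
    (hl : ψ (lam A B) = lam A B * w ^ 2)
    (ψ' : RatFunc F →+* RatFunc F) (w' : RatFunc F) (hw' : w' ≠ 0)
    (hA' : ψ' (RatFunc.C A) = RatFunc.C A) (hB' : ψ' (RatFunc.C B) = RatFunc.C B)
    (hl' : ψ' (lam A B) = lam A B * w' ^ 2)
    (hψ : ∀ z, ψ (ψ' z) = ψ' (ψ z)) (hww : ψ w' * w = ψ' w * w')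
    (P : (Elam A B).toAffine.Point) :
    lamEnd A B ψ w hw hA hB hl (lamEnd A B ψ' w' hw' hA' hB' hl' P) =
      lamEnd A B ψ' w' hw' hA' hB' hl' (lamEnd A B ψ w hw hA hB hl P) :=
  twEnd_comm _ _ ψ w hw _ _ ψ' w' hw' _ _ hψ hww P

end Fermat.Agent.S52.H99
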