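import Fermat.Agent.S52.H99.Leaves
import Fermat.Agent.S52.H3.ManinAlgebra

/-!
# Manin's identity on the twisted curve, from the two remaining leaves (M*) and (MN)

`Fermat.Agent.S52.H3.manin_two_torsion` instantiated with the concrete group
`G = Elam(F(t))`, the height `hP`, the Frobenius `Phi` and the generic point `P0`:
the leaves (MΦ), (Mσ), (MZ) are supplied by `Leaves.lean`; (M*) and (MN) remain hypotheses.
-/

set_option autoImplicit false

namespace Fermat.Agent.S52.H99

open WeierstrassCurve WeierstrassCurve.Affine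

variable {F : Type*} [Field F] [DecidableEq (RatFunc F)]

/-- Manin's identity `2 • (Φ² P0 - a Φ P0 + p P0) = 0`, `a = p + 1 - N`, on the twisted curve,
assuming the parallelogram leaf (M*) and the point count leaf (MN). -/
theorem manin_two_torsion_Elam (p N : ℕ) [ExpChar F p] (hpp : p.Prime) (A B : F) (hp : Odd p)
    (hA : A ^ p = A) (hB : B ^ p = B) (h2 : (2 : F) ≠ 0)
    (Mstar : ∀ P, hP A B (P + P0 A B h2) + hP A B (P - P0 A B h2) = 2 * hP A B P + 2)
    (MN : hP A B (Phi p A B hp hA hB (P0 A B h2) - P0 A B h2) = N) :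
    2 • (Phi p A B hp hA hB (Phi p A B hp hA hB (P0 A B h2))
      - ((p : ℤ) + 1 - N) • Phi p A B hp hA hB (P0 A B h2) + (p : ℤ) • P0 A B h2) = 0 :=
  Fermat.Agent.S52.H3.manin_two_torsion (hP A B) (Phi p A B hp hA hB) (P0 A B h2) p N hpp
    (hP_zero A B) (hP_P0 A B h2) Mstar (hP_Phi p A B hp hA hB)
    (exists_sigma p A B hp hA hB h2) MN (two_nsmul_eq_zero_of_hP_eq_zero A B)

/-- The same with the height statement: the point has height zero. -/
theorem manin_height_Elam (p N : ℕ) [ExpChar F p] (hpp : p.Prime) (A B : F) (hp : Odd p)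
    (hA : A ^ p = A) (hB : B ^ p = B) (h2 : (2 : F) ≠ 0)
    (Mstar : ∀ P, hP A B (P + P0 A B h2) + hP A B (P - P0 A B h2) = 2 * hP A B P + 2)
    (MN : hP A B (Phi p A B hp hA hB (P0 A B h2) - P0 A B h2) = N) :
    hP A B (Phi p A B hp hA hB (Phi p A B hp hA hB (P0 A B h2))
      - ((p : ℤ) + 1 - N) • Phi p A B hp hA hB (P0 A B h2) + (p : ℤ) • P0 A B h2) = 0 :=
  Fermat.Agent.S52.H3.manin_algebra (hP A B) (Phi p A B hp hA hB) (P0 A B h2) p N hpp
    (hP_zero A B) (hP_P0 A B h2) Mstar (hP_Phi p A B hp hA hB)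
    (exists_sigma p A B hp hA hB h2) MN (two_nsmul_eq_zero_of_hP_eq_zero A B)

end Fermat.Agent.S52.H99
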