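import Fermat.Agent.S52.H99.TwEnd
import Fermat.Agent.S52.H41.RatSubst
import Fermat.Agent.S52.H94.CHModel

/-!
# The leaves (MΦ-a), (MΦ-b), (Mσ) of Manin's method on the landed model `H76.Etw`

Statements are the `Prop`-valued definitions of `H94/CHModel.lean`:

* `phiExistsStatement` : `H94.PhiExistsStatement A B p` (Frobenius as an additive map), for a field
  of characteristic exponent `p` odd with `A ^ p = A`, `B ^ p = B` (e.g. `ZMod p`);
* `phiHeightStatement` : `H94.PhiHeightStatement A B l` for every odd `l` (any field);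
* `sigmaStatement` : `H94.SigmaStatement A B h2 l` for every odd `l` (any field).
-/

set_option autoImplicit false

namespace Fermat.Agent.S52.H99

open WeierstrassCurve WeierstrassCurve.Affine
open Fermat.Agent.S52

variable {F : Type*} [Field F]

lemma H76ht_eq (r : RatFunc F) : H76.ht r = H41.ht r := rfl

/-- The height of a power. -/
lemma H76ht_pow (r : RatFunc F) (n : ℕ) : H76.ht (r ^ n) = n * H76.ht r := by
  rw [H76ht_eq, H76ht_eq]
  by_cases hr : ∃ c, r = RatFunc.C c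
  · obtain ⟨c, rfl⟩ := hr
    rw [← map_pow, H41.ht_C, H41.ht_C, mul_zero]
  · have e : r ^ n = H41.substHom r hr (RatFunc.X ^ n) := by rw [map_pow, H41.substHom_X]
    rw [e, H41.ht_substHom]
    congr 1
    have e' : (RatFunc.X : RatFunc F) ^ n =
        algebraMap (Polynomial F) (RatFunc F) (Polynomial.X ^ n) := by simp
    rw [e', H41.ht, RatFunc.num_algebraMap, RatFunc.denom_algebraMap]
    simp

variable [DecidableEq (RatFunc F)]

/-- The twisted endomorphism of `H76.Etw` attached to a ring endomorphism `ψ` of `F(t)` fixing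
`A`, `B` and a function `w ≠ 0` with `ψ lam = lam w²`: `(X, Y) ↦ (ψ X / w², ψ Y / w³)`. -/
noncomputable def etwEnd (A B : F) (ψ : RatFunc F →+* RatFunc F) (w : RatFunc F) (hw : w ≠ 0)
    (hA : ψ (RatFunc.C A) = RatFunc.C A) (hB : ψ (RatFunc.C B) = RatFunc.C B)
    (hl : ψ (H76.lam A B) = H76.lam A B * w ^ 2) :
    (H76.Etw A B).toAffine.Point →+ (H76.Etw A B).toAffine.Point :=
  twEnd (RatFunc.C A * H76.lam A B ^ 2) (RatFunc.C B * H76.lam A B ^ 3) ψ w hw
    (by rw [map_mul, map_pow, hA, hl]; ring) (by rw [map_mul, map_pow, hB, hl]; ring)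

lemma etwEnd_some (A B : F) (ψ : RatFunc F →+* RatFunc F) (w : RatFunc F) (hw : w ≠ 0)
    (hA : ψ (RatFunc.C A) = RatFunc.C A) (hB : ψ (RatFunc.C B) = RatFunc.C B)
    (hl : ψ (H76.lam A B) = H76.lam A B * w ^ 2) {x y : RatFunc F}
    (h : (H76.Etw A B).toAffine.Nonsingular x y) :
    ∃ h' : (H76.Etw A B).toAffine.Nonsingular (ψ x / w ^ 2) (ψ y / w ^ 3),
      etwEnd A B ψ w hw hA hB hl (.some x y h) = .some (ψ x / w ^ 2) (ψ y / w ^ 3) h' :=
  twEnd_some _ _ ψ w hw _ _ h

/-- The twisted `x`-coordinate of the image is `ψ` of the twisted `x`-coordinate. -/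
lemma hP_etwEnd_some (A B : F) (ψ : RatFunc F →+* RatFunc F) (w : RatFunc F) (hw : w ≠ 0)
    (hA : ψ (RatFunc.C A) = RatFunc.C A) (hB : ψ (RatFunc.C B) = RatFunc.C B)
    (hl : ψ (H76.lam A B) = H76.lam A B * w ^ 2) {x y : RatFunc F}
    (h : (H76.Etw A B).toAffine.Nonsingular x y) :
    H76.hP A B (etwEnd A B ψ w hw hA hB hl (.some x y h)) = H76.ht (ψ (x / H76.lam A B)) := by
  obtain ⟨h', e⟩ := etwEnd_some A B ψ w hw hA hB hl h
  rw [e, H76.hP_some, map_div₀, hl, div_div, mul_comm (w ^ 2)]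

/-! ### (MΦ-a): existence of the Frobenius endomorphism -/

section Phi

variable (p : ℕ) [ExpChar F p]

omit [DecidableEq (RatFunc F)] in
lemma frobenius_C_eq' (A : F) (hA : A ^ p = A) :
    frobenius (RatFunc F) p (RatFunc.C A) = RatFunc.C A := by
  rw [frobenius_def, ← map_pow, hA]

omit [DecidableEq (RatFunc F)] in
lemma frobenius_lam' (A B : F) (hp : Odd p) :
    frobenius (RatFunc F) p (H76.lam A B) =
      H76.lam A B * (H76.lam A B ^ ((p - 1) / 2)) ^ 2 := by
  rw [frobenius_def, ← pow_mul, ← pow_succ']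
  congr 1
  obtain ⟨k, rfl⟩ := hp
  omega

/-- The Frobenius endomorphism of the twist `H76.Etw`. -/
noncomputable def PhiE (A B : F) (hp : Odd p) (hA : A ^ p = A) (hB : B ^ p = B) :
    (H76.Etw A B).toAffine.Point →+ (H76.Etw A B).toAffine.Point :=
  etwEnd A B (frobenius (RatFunc F) p) (H76.lam A B ^ ((p - 1) / 2))
    (pow_ne_zero _ (H76.lam_ne_zero A B)) (frobenius_C_eq' p A hA) (frobenius_C_eq' p B hB)
    (frobenius_lam' p A B hp)

theorem isPhi_PhiE (A B : F) (hp : Odd p) (hA : A ^ p = A) (hB : B ^ p = B) :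
    H94.IsPhi A B p (PhiE p A B hp hA hB) := by
  intro x y h
  obtain ⟨h', e⟩ := etwEnd_some A B (frobenius (RatFunc F) p) (H76.lam A B ^ ((p - 1) / 2))
    (pow_ne_zero _ (H76.lam_ne_zero A B)) (frobenius_C_eq' p A hA) (frobenius_C_eq' p B hB)
    (frobenius_lam' p A B hp) h
  exact ⟨h', e⟩

/-- **(MΦ-a)** for a field of characteristic exponent `p` (odd) and `A, B` fixed by Frobenius. -/
theorem phiExistsStatement_of_expChar (A B : F) (hp : Odd p) (hA : A ^ p = A) (hB : B ^ p = B) :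
    H94.PhiExistsStatement A B p :=
  ⟨PhiE p A B hp hA hB, isPhi_PhiE p A B hp hA hB⟩

end Phi

/-- **(MΦ-a)** over `ZMod l`, `l` an odd prime. -/
theorem phiExistsStatement (l : ℕ) [Fact l.Prime] (hl : l ≠ 2) (A B : ZMod l)
    [DecidableEq (RatFunc (ZMod l))] : H94.PhiExistsStatement A B l :=
  phiExistsStatement_of_expChar l A B ((Fact.out : l.Prime).odd_of_ne_two hl)
    (ZMod.pow_card A) (ZMod.pow_card B)

/-! ### (MΦ-b): the height of `Φ P` -/

/-- **(MΦ-b)**: `h (Φ P) = l * h P` for every odd `l` and every `Φ` with the coordinate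
formula `IsPhi`. -/
theorem phiHeightStatement (A B : F) (l : ℕ) (hl : Odd l) : H94.PhiHeightStatement A B l := by
  intro Φ hΦ P
  rcases P with _ | ⟨x, y, h⟩
  · change H76.hP A B (Φ 0) = l * H76.hP A B 0
    rw [map_zero]
    simp
  · obtain ⟨h', e⟩ := hΦ x y h
    rw [e, H76.hP_some, H76.hP_some, ← H76ht_pow]
    congr 1
    have hl0 := H76.lam_ne_zero A B
    obtain ⟨k, rfl⟩ := hl
    have hk : (2 * k + 1 - 1) / 2 = k := by omega
    rw [hk, div_pow, div_div, ← pow_mul, ← pow_succ, mul_comm k 2]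

/-! ### (Mσ): the substitution endomorphisms -/

/-- **(Mσ)**: for every point `Q` of nonzero height there is an additive `σ` with `σ P0 = Q`,
commuting with `Φ` and multiplying heights by `h Q`. -/
theorem sigmaStatement (A B : F) (h2 : (2 : F) ≠ 0) (l : ℕ) (hl : Odd l) :
    H94.SigmaStatement A B h2 l := by
  intro Φ hΦ Q hQ
  rcases Q with _ | ⟨XQ, YQ, hQn⟩
  · exact absurd rfl hQ
  rw [H76.hP_some, H76ht_eq] at hQ
  have hne : ¬∃ c, XQ / H76.lam A B = RatFunc.C c := by
    rintro ⟨c, hc⟩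
    rw [hc, H41.ht_C] at hQ
    exact hQ rfl
  have hl0 := H76.lam_ne_zero A B
  obtain ⟨ψ, hψ⟩ : ∃ ψ : RatFunc F →+* RatFunc F,
      ψ = (H41.substHom (XQ / H76.lam A B) hne : RatFunc F →+* RatFunc F) := ⟨_, rfl⟩
  have hψX : ψ RatFunc.X = XQ / H76.lam A B := by rw [hψ]; exact H41.substHom_X _ hne
  have hψC : ∀ c : F, ψ (RatFunc.C c) = RatFunc.C c := fun c => by
    rw [hψ]; exact H41.substHom_C _ hne c
  obtain ⟨w, hw⟩ : ∃ w : RatFunc F, w = YQ / H76.lam A B ^ 2 := ⟨_, rfl⟩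
  have hlw : ψ (H76.lam A B) = H76.lam A B * w ^ 2 := by
    have heq := (H76.Etw_equation_iff A B XQ YQ).mp hQn.1
    have e : ψ (H76.lam A B) =
        (XQ / H76.lam A B) ^ 3 + RatFunc.C A * (XQ / H76.lam A B) + RatFunc.C B := by
      conv_lhs => rw [H76.lam_eq]
      rw [map_add, map_add, map_mul, map_pow, hψX, hψC, hψC]
    rw [e, hw]
    field_simp
    linear_combination (-1 : RatFunc F) * heq
  have hw0 : w ≠ 0 := by
    intro h0
    rw [h0] at hlw
    simp only [ne_eq, OfNat.ofNat_ne_zero, not_false_eq_true, zero_pow, mul_zero] at hlw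
    exact hl0 ((map_eq_zero ψ).mp hlw)
  refine ⟨etwEnd A B ψ w hw0 (hψC A) (hψC B) hlw, ?_, ?_, ?_⟩
  · obtain ⟨h', e⟩ := etwEnd_some A B ψ w hw0 (hψC A) (hψC B) hlw (H76.P0_nonsingular A B h2)
    rw [H76.P0, e]
    refine some_congr' _ _ ?_ ?_
    · rw [map_mul, hlw, hψX]
      field_simp
    · rw [map_pow, hlw, hw]
      field_simp
  · intro P
    rcases P with _ | ⟨x, y, h⟩
    · change etwEnd A B ψ w hw0 (hψC A) (hψC B) hlw (Φ 0) =
        Φ (etwEnd A B ψ w hw0 (hψC A) (hψC B) hlw 0)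
      rw [map_zero, map_zero, map_zero]
    · obtain ⟨h1, e1⟩ := hΦ x y h
      obtain ⟨h2', e2⟩ := etwEnd_some A B ψ w hw0 (hψC A) (hψC B) hlw h1
      obtain ⟨h3, e3⟩ := etwEnd_some A B ψ w hw0 (hψC A) (hψC B) hlw h
      obtain ⟨h4, e4⟩ := hΦ _ _ h3
      rw [e1, e2, e3, e4]
      obtain ⟨k, rfl⟩ := hl
      have hk : (2 * k + 1 - 1) / 2 = k := by omega
      refine some_congr' _ _ ?_ ?_
      · simp only [hk, map_div₀, map_pow, hlw, div_pow, mul_pow]
        field_simp
        ring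
      · simp only [hk, map_div₀, map_pow, hlw, div_pow, mul_pow]
        field_simp
        ring
  · intro P
    rcases P with _ | ⟨x, y, h⟩
    · change H76.hP A B (etwEnd A B ψ w hw0 (hψC A) (hψC B) hlw 0) = H76.hP A B 0 * _
      rw [map_zero]
      simp
    · rw [hP_etwEnd_some, H76.hP_some, H76.hP_some, hψ]
      exact H41.ht_substHom _ hne _

end Fermat.Agent.S52.H99
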