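import Mathlib.AlgebraicGeometry.EllipticCurve.Affine.Point

/-!
# The map on points induced by a field homomorphism (semilinear version)

Mathlib's `WeierstrassCurve.Affine.Point.map` transports points along an algebra homomorphism
over the base ring of the curve.  Here the curve itself is moved: for a ring homomorphism
`φ : K →+* K'` of fields and a Weierstrass curve `W` over `K`, the map
`(x, y) ↦ (φ x, φ y)` is a homomorphism of groups `W.Point →+ (W.map φ).Point`.
-/

set_option autoImplicit false

namespace Fermat.Agent.S52.H99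

open WeierstrassCurve WeierstrassCurve.Affine

variable {K K' : Type*} [Field K] [Field K']

/-- The underlying function of `semiMap`. -/
def semiFun (φ : K →+* K') (W : Affine K) : W.Point → (W.map φ).toAffine.Point
  | .zero => .zero
  | .some x y h => .some (φ x) (φ y) ((W.map_nonsingular φ.injective x y).mpr h)

@[simp] lemma semiFun_zero (φ : K →+* K') (W : Affine K) : semiFun φ W 0 = 0 := rfl

@[simp] lemma semiFun_some (φ : K →+* K') (W : Affine K) {x y : K} (h : W.Nonsingular x y) :
    semiFun φ W (.some x y h) =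
      .some (φ x) (φ y) ((W.map_nonsingular φ.injective x y).mpr h) := rfl

/-- Two affine points with equal coordinates are equal. -/
lemma some_congr' {W' : Affine K} {x₁ y₁ x₂ y₂ : K} (h₁ : W'.Nonsingular x₁ y₁)
    (h₂ : W'.Nonsingular x₂ y₂) (hx : x₁ = x₂) (hy : y₁ = y₂) :
    Point.some x₁ y₁ h₁ = Point.some x₂ y₂ h₂ := by
  subst hx hy
  rfl

variable [DecidableEq K] [DecidableEq K']

lemma semiFun_add (φ : K →+* K') (W : Affine K) (P Q : W.Point) :
    semiFun φ W (P + Q) = semiFun φ W P + semiFun φ W Q := by
  rcases P with _ | ⟨x₁, y₁, h₁⟩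
  · change semiFun φ W (0 + Q) = 0 + semiFun φ W Q
    rw [zero_add, zero_add]
  rcases Q with _ | ⟨x₂, y₂, h₂⟩
  · change semiFun φ W (Point.some x₁ y₁ h₁ + 0) = semiFun φ W (Point.some x₁ y₁ h₁) + 0
    rw [add_zero, add_zero]
  by_cases hxy : x₁ = x₂ ∧ y₁ = W.negY x₂ y₂
  · rw [Point.add_of_Y_eq hxy.left hxy.right, semiFun_some, semiFun_some,
      Point.add_of_Y_eq (congr_arg φ hxy.left) (by rw [hxy.right, map_negY])]
    rfl
  · have hxy' : ¬(φ x₁ = φ x₂ ∧ φ y₁ = (W.map φ).toAffine.negY (φ x₂) (φ y₂)) := by
      rintro ⟨hx, hy⟩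
      rw [map_negY] at hy
      exact hxy ⟨φ.injective hx, φ.injective hy⟩
    rw [Point.add_some hxy, semiFun_some, semiFun_some, semiFun_some, Point.add_some hxy']
    refine some_congr' _ _ ?_ ?_
    · rw [map_slope, map_addX]
    · rw [map_slope, map_addY]

/-- The homomorphism on points `W(K) → (W.map φ)(K')` induced by a field homomorphism `φ`. -/
def semiMap (φ : K →+* K') (W : Affine K) : W.Point →+ (W.map φ).toAffine.Point where
  toFun := semiFun φ W
  map_zero' := rfl
  map_add' := semiFun_add φ W

@[simp] lemma semiMap_zero (φ : K →+* K') (W : Affine K) : semiMap φ W 0 = 0 := rfl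

@[simp] lemma semiMap_some (φ : K →+* K') (W : Affine K) {x y : K} (h : W.Nonsingular x y) :
    semiMap φ W (.some x y h) =
      .some (φ x) (φ y) ((W.map_nonsingular φ.injective x y).mpr h) := rfl

end Fermat.Agent.S52.H99
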