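import Fermat.Agent.S52.H99.SemiMap
import Fermat.Agent.S05.H98.VarChangePoint

/-!
# Twisted endomorphisms of a short Weierstrass curve

For a field `K`, the curve `W : y² = x³ + a x + b` over `K`, a ring endomorphism `ψ` of `K`
and `u ≠ 0` with `ψ a = a u⁴`, `ψ b = b u⁶`, the map
`(x, y) ↦ (ψ x / u², ψ y / u³)` is an endomorphism of the group `W(K)`:
it is the semilinear map `W(K) → (W.map ψ)(K)` followed by the change of variables by `u`.
-/

set_option autoImplicit false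

namespace Fermat.Agent.S52.H99

open WeierstrassCurve WeierstrassCurve.Affine
open Fermat.Agent.S05.H98

variable {K : Type*} [Field K]

/-- The short Weierstrass curve `y² = x³ + a x + b`. -/
def shortW (a b : K) : WeierstrassCurve K := ⟨0, 0, 0, a, b⟩

/-- The change of variables `(x, y) ↦ (u⁻² x, u⁻³ y)`. -/
def scaleVC (u : K) (hu : u ≠ 0) : VariableChange K := ⟨Units.mk0 u hu, 0, 0, 0⟩

lemma scaleVC_smul_map (a b : K) (ψ : K →+* K) (u : K) (hu : u ≠ 0)
    (ha : ψ a = a * u ^ 4) (hb : ψ b = b * u ^ 6) :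
    scaleVC u hu • (shortW a b).map ψ = shortW a b := by
  rw [variableChange_def]
  ext
  · simp [scaleVC, shortW]
  · simp [scaleVC, shortW]
  · simp [scaleVC, shortW]
  · simp only [scaleVC, shortW, map_a₄, map_a₃, map_a₂, map_a₁, map_zero, ha, Units.val_inv_eq_inv_val,
      Units.val_mk0]
    field_simp
    ring
  · simp only [scaleVC, shortW, map_a₆, map_a₄, map_a₃, map_a₂, map_a₁, map_zero, hb,
      Units.val_inv_eq_inv_val, Units.val_mk0]
    field_simp
    ring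

variable [DecidableEq K]

/-- The twisted endomorphism `(x, y) ↦ (ψ x / u², ψ y / u³)` of `y² = x³ + a x + b`. -/
def twEnd (a b : K) (ψ : K →+* K) (u : K) (hu : u ≠ 0)
    (ha : ψ a = a * u ^ 4) (hb : ψ b = b * u ^ 6) :
    (shortW a b).toAffine.Point →+ (shortW a b).toAffine.Point :=
  (pointEquivOfEq (scaleVC u hu) ((shortW a b).map ψ) (shortW a b)
    (scaleVC_smul_map a b ψ u hu ha hb)).toAddMonoidHom.comp (semiMap ψ (shortW a b))

@[simp] lemma twEnd_zero (a b : K) (ψ : K →+* K) (u : K) (hu : u ≠ 0)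
    (ha : ψ a = a * u ^ 4) (hb : ψ b = b * u ^ 6) : twEnd a b ψ u hu ha hb 0 = 0 :=
  map_zero _

lemma twEnd_some (a b : K) (ψ : K →+* K) (u : K) (hu : u ≠ 0)
    (ha : ψ a = a * u ^ 4) (hb : ψ b = b * u ^ 6) {x y : K}
    (h : (shortW a b).toAffine.Nonsingular x y) :
    ∃ h' : (shortW a b).toAffine.Nonsingular (ψ x / u ^ 2) (ψ y / u ^ 3),
      twEnd a b ψ u hu ha hb (.some x y h) = .some (ψ x / u ^ 2) (ψ y / u ^ 3) h' := by
  have e : twEnd a b ψ u hu ha hb (.some x y h) =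
      pointEquivOfEq (scaleVC u hu) ((shortW a b).map ψ) (shortW a b)
        (scaleVC_smul_map a b ψ u hu ha hb) (semiMap ψ (shortW a b) (.some x y h)) := rfl
  rw [semiMap_some, pointEquivOfEq_some] at e
  have hx : vcX (scaleVC u hu) (ψ x) = ψ x / u ^ 2 := by
    simp [vcX, scaleVC, div_eq_inv_mul]
  have hy : vcY (scaleVC u hu) (ψ x) (ψ y) = ψ y / u ^ 3 := by
    simp [vcY, scaleVC, div_eq_inv_mul]
  have h0 := nonsingular_of_eq (scaleVC u hu) ((shortW a b).map ψ)
    (scaleVC_smul_map a b ψ u hu ha hb)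
    ((WeierstrassCurve.Affine.map_nonsingular (shortW a b) ψ.injective x y).mpr h)
  have h' : (shortW a b).toAffine.Nonsingular (ψ x / u ^ 2) (ψ y / u ^ 3) := by
    rw [← hx, ← hy]; exact h0
  exact ⟨h', e.trans (some_congr' _ _ hx hy)⟩

/-- Two twisted endomorphisms commute as soon as the ring endomorphisms commute and the
scaling factors are compatible. -/
lemma twEnd_comm (a b : K) (ψ : K →+* K) (u : K) (hu : u ≠ 0)
    (ha : ψ a = a * u ^ 4) (hb : ψ b = b * u ^ 6) (ψ' : K →+* K) (u' : K) (hu' : u' ≠ 0)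
    (ha' : ψ' a = a * u' ^ 4) (hb' : ψ' b = b * u' ^ 6)
    (hψ : ∀ z, ψ (ψ' z) = ψ' (ψ z)) (huu : ψ u' * u = ψ' u * u')
    (P : (shortW a b).toAffine.Point) :
    twEnd a b ψ u hu ha hb (twEnd a b ψ' u' hu' ha' hb' P) =
      twEnd a b ψ' u' hu' ha' hb' (twEnd a b ψ u hu ha hb P) := by
  rcases P with _ | ⟨x, y, h⟩
  · change twEnd a b ψ u hu ha hb (twEnd a b ψ' u' hu' ha' hb' 0) =
      twEnd a b ψ' u' hu' ha' hb' (twEnd a b ψ u hu ha hb 0)
    simp
  · obtain ⟨h1, e1⟩ := twEnd_some a b ψ' u' hu' ha' hb' h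
    obtain ⟨h2, e2⟩ := twEnd_some a b ψ u hu ha hb h1
    obtain ⟨h3, e3⟩ := twEnd_some a b ψ u hu ha hb h
    obtain ⟨h4, e4⟩ := twEnd_some a b ψ' u' hu' ha' hb' h3
    rw [e1, e2, e3, e4]
    have hψu' : ψ u' ≠ 0 := (map_ne_zero ψ).mpr hu'
    have hψ'u : ψ' u ≠ 0 := (map_ne_zero ψ').mpr hu
    refine some_congr' _ _ ?_ ?_
    · rw [map_div₀, map_div₀, map_pow, map_pow, hψ, div_div, div_div,
        ← mul_pow, ← mul_pow, huu]
    · rw [map_div₀, map_div₀, map_pow, map_pow, hψ, div_div, div_div,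
        ← mul_pow, ← mul_pow, huu]

end Fermat.Agent.S52.H99
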